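import Mathlib
import Fermat.Agent.S23.Nice

/-!
# S16 / MF / Exp (owner helper21): expansions in `x = e^{2πiz/h}` on the upper half plane

Shared calculus for "`G(z) = Σ_m B_m e^{2πi m z / h}` for all `z ∈ ℍ`":

* `sigmaNat N k = Σ_{d ∣ k, N ∤ d} d` (the `σ'` of the blueprint, as a natural number; reducible alias `sigmaP`);
* `HasExp h G B` (the coefficients are a `PowerSeries ℂ`, the variable is `𝕢 h z = e^{2πiz/h}`);
* uniqueness, algebra (`add`, `sub`, `smul`, `mul`, `prod`, …), modular forms (`hasExp_gam`, …);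
* changes of variable: `z ↦ z + j` (`comp_add`, coefficients rescaled by a root of unity),
  `z ↦ z / p` (`comp_div`, `h ↦ h * p`), `z ↦ p z` (`comp_mul`, `PowerSeries.expand`),
  `h ↦ h * t` (`expand_h`), `z ↦ (z + j) / p` (`comp_affine`).
-/

set_option autoImplicit false

open UpperHalfPlane ModularForm CongruenceSubgroup Complex Function
open scoped MatrixGroups ModularForm Real

namespace Fermat.Agent.S16

open Fermat.Agent.S23 (Gam)

/-- `σ'_N(k) = Σ_{d ∣ k, N ∤ d} d`, as a natural number. THE name is `sigmaNat` (chief's freeze);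
the `ℤ`-valued version for a prime level is `Fermat.Agent.S16.DU.sigmaPZ` in `DUIdeal/Defs.lean`. -/
def sigmaNat (N k : ℕ) : ℕ := ∑ d ∈ k.divisors with ¬ N ∣ d, d

/-- Reducible alias of `sigmaNat` (compatibility with early interface files). -/
abbrev sigmaP (N k : ℕ) : ℕ := sigmaNat N k

theorem sigmaP_eq (N k : ℕ) : sigmaP N k = sigmaNat N k := rfl

theorem sigmaNat_def (N k : ℕ) : sigmaNat N k = ∑ d ∈ k.divisors with ¬ N ∣ d, d := rfl

theorem sigmaNat_cast_int (N k : ℕ) :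
    ((sigmaNat N k : ℕ) : ℤ) = ∑ d ∈ k.divisors.filter (fun d => ¬ N ∣ d), (d : ℤ) := by
  simp [sigmaNat]

/-- `G(z) = Σ_m B_m x^m` with `x = 𝕢 h z = e^{2πiz/h}`, for every `z` in the upper half plane. -/
def HasExp (h : ℕ) (G : ℍ → ℂ) (B : PowerSeries ℂ) : Prop :=
  ∀ z : ℍ, HasSum (fun m : ℕ => PowerSeries.coeff m B * Periodic.qParam (h : ℝ) (z : ℂ) ^ m) (G z)

theorem qParam_pow_eq (h : ℕ) (z : ℂ) (m : ℕ) :
    Periodic.qParam (h : ℝ) z ^ m =
      Complex.exp (2 * (π : ℂ) * Complex.I * ((m : ℂ) * z / (h : ℂ))) := by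
  rw [Periodic.qParam, ← Complex.exp_nat_mul]
  congr 1
  push_cast
  ring

/-- The same with explicit exponentials. -/
theorem hasExp_iff_exp (h : ℕ) (G : ℍ → ℂ) (B : PowerSeries ℂ) :
    HasExp h G B ↔ ∀ z : ℍ, HasSum (fun m : ℕ => PowerSeries.coeff m B *
      Complex.exp (2 * (π : ℂ) * Complex.I * ((m : ℂ) * (z : ℂ) / (h : ℂ)))) (G z) := by
  unfold HasExp
  simp only [qParam_pow_eq]

/-- A power series vanishing on the punctured unit disc is zero. -/
theorem coeff_eq_zero_of_hasSum_zero (d : ℕ → ℂ)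
    (hd : ∀ q : ℂ, q ≠ 0 → ‖q‖ < 1 → HasSum (fun m : ℕ => d m * q ^ m) 0) : ∀ m, d m = 0 := by
  set p : FormalMultilinearSeries ℂ ℂ ℂ := .ofScalars ℂ d with hp
  have hrad : 1 ≤ p.radius := by
    refine le_of_forall_lt_imp_le_of_dense fun r hr ↦ ?_
    rcases eq_or_ne r 0 with rfl | hr'
    · simp
    · lift r to NNReal using hr.ne_top
      apply FormalMultilinearSeries.le_radius_of_summable
      have h1 : ‖((r : ℝ) : ℂ)‖ < 1 := by simpa using hr
      have h2 : ((r : ℝ) : ℂ) ≠ 0 := by exact_mod_cast hr'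
      simpa [hp, smul_eq_mul, norm_mul, mul_comm, mul_left_comm, mul_assoc] using
        (hd _ h2 h1).summable.norm
  have hball : HasFPowerSeriesOnBall p.sum p 0 1 := by
    have := p.hasFPowerSeriesOnBall (lt_of_lt_of_le one_pos hrad)
    exact this.mono one_pos hrad
  have hsum : ∀ q : ℂ, q ≠ 0 → ‖q‖ < 1 → p.sum q = 0 := by
    intro q hq0 hq
    have h1 : HasSum (fun m : ℕ => p m fun _ => q) (p.sum (0 + q)) :=
      hball.hasSum (by
        rw [← ENNReal.coe_one, Metric.eball_coe, NNReal.coe_one, mem_ball_zero_iff]; exact hq)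
    have h2 : HasSum (fun m : ℕ => p m fun _ => q) 0 := by
      convert hd q hq0 hq using 2 with m
      simp [hp, FormalMultilinearSeries.ofScalars]
    simpa using h1.unique h2
  have h0 : p.sum 0 = 0 := by
    have hc : ContinuousAt p.sum 0 := hball.hasFPowerSeriesAt.continuousAt
    have hc0 : ContinuousAt (fun _ : ℂ => (0 : ℂ)) 0 := continuousAt_const
    have := (hc.eventuallyEq_nhds_iff_eventuallyEq_nhdsNE hc0).mp (by
      have : ∀ᶠ q : ℂ in nhdsWithin 0 {0}ᶜ, ‖q‖ < 1 := by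
        have h1 : ∀ᶠ q : ℂ in nhds 0, ‖q‖ < 1 := by
          filter_upwards [Metric.ball_mem_nhds (0 : ℂ) one_pos] with q hq using by simpa using hq
        exact nhdsWithin_le_nhds h1
      filter_upwards [self_mem_nhdsWithin, this] with q hq0 hq1 using hsum q hq0 hq1)
    exact this.eq_of_nhds
  have hzero : HasFPowerSeriesAt (0 : ℂ → ℂ) p 0 := by
    refine (hball.hasFPowerSeriesAt).congr ?_
    have : ∀ᶠ q : ℂ in nhds 0, ‖q‖ < 1 := by
      filter_upwards [Metric.ball_mem_nhds (0 : ℂ) one_pos] with q hq using by simpa using hq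
    filter_upwards [this] with q hq
    by_cases hq0 : q = 0
    · simpa [hq0] using h0
    · simpa using hsum q hq0 hq
  have hp0 : p = 0 := hzero.eq_zero
  intro m
  have h1 : p.coeff m = d m := by
    rw [hp, FormalMultilinearSeries.coeff_ofScalars]
  rw [← h1, hp0]
  simp [FormalMultilinearSeries.coeff]

/-- Uniqueness of the expansion. -/
theorem HasExp.unique {h : ℕ} (hh : 0 < h) {G : ℍ → ℂ} {B B' : PowerSeries ℂ}
    (hB : HasExp h G B) (hB' : HasExp h G B') : B = B' := by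
  have hh' : (0 : ℝ) < (h : ℝ) := by exact_mod_cast hh
  have key := coeff_eq_zero_of_hasSum_zero
    (fun m => PowerSeries.coeff m B - PowerSeries.coeff m B') (by
      intro q hq0 hq
      have h1 := Periodic.im_invQParam_pos_of_norm_lt_one hh' hq hq0
      let τ : ℍ := ⟨Periodic.invQParam (h : ℝ) q, h1⟩
      have h2 : Periodic.qParam (h : ℝ) (τ : ℂ) = q := Periodic.qParam_right_inv hh'.ne' hq0
      have h3 := (hB τ).sub (hB' τ)
      rw [h2, sub_self] at h3
      simpa [sub_mul] using h3)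
  ext m
  exact sub_eq_zero.mp (key m)

theorem hasExp_of_isNice {F : ℍ → ℂ} (hF : Fermat.Agent.S23.IsNice F) :
    HasExp 1 F (qExpansion 1 F) := by
  intro z
  have := UpperHalfPlane.hasSum_qExpansion one_pos hF.1 hF.2.1 hF.2.2 z
  simpa [smul_eq_mul] using this

theorem hasExp_gam {N : ℕ} [NeZero N] {k : ℤ} (F : ModularForm (Gam N) k) :
    HasExp 1 (F : ℍ → ℂ) (qExpansion 1 F) :=
  hasExp_of_isNice (Fermat.Agent.S23.isNice_modularForm F)

theorem hasExp_cusp {N : ℕ} [NeZero N] {k : ℤ} (F : CuspForm (Gam N) k) :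
    HasExp 1 (F : ℍ → ℂ) (qExpansion 1 F) :=
  hasExp_of_isNice (Fermat.Agent.S23.isNice_cuspForm F)

theorem hasExp_levelOne {k : ℤ} (F : ModularForm 𝒮ℒ k) :
    HasExp 1 (F : ℍ → ℂ) (qExpansion 1 F) :=
  hasExp_of_isNice (Fermat.Agent.S23.isNice_levelOne F)

theorem HasExp.congr {h : ℕ} {G G' : ℍ → ℂ} {B : PowerSeries ℂ} (hB : HasExp h G B)
    (hG : ∀ z, G' z = G z) : HasExp h G' B := by
  intro z; rw [hG z]; exact hB z

theorem hasExp_const (h : ℕ) (c : ℂ) : HasExp h (fun _ => c) (PowerSeries.C c) := by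
  intro z
  have := hasSum_single (f := fun m : ℕ => PowerSeries.coeff m (PowerSeries.C c) *
    Periodic.qParam (h : ℝ) (z : ℂ) ^ m) 0 (by
      intro m hm
      simp [PowerSeries.coeff_C, hm])
  simpa using this

theorem hasExp_zero (h : ℕ) : HasExp h (0 : ℍ → ℂ) 0 := by
  intro z
  simpa using (hasSum_zero : HasSum (fun _ : ℕ => (0 : ℂ)) 0)

theorem hasExp_one (h : ℕ) : HasExp h (1 : ℍ → ℂ) 1 := by
  have := hasExp_const h 1
  rw [map_one] at this
  exact this

theorem HasExp.add {h : ℕ} {G G' : ℍ → ℂ} {B B' : PowerSeries ℂ} (hB : HasExp h G B)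
    (hB' : HasExp h G' B') : HasExp h (G + G') (B + B') := by
  intro z
  simpa [add_mul] using (hB z).add (hB' z)

theorem HasExp.sub {h : ℕ} {G G' : ℍ → ℂ} {B B' : PowerSeries ℂ} (hB : HasExp h G B)
    (hB' : HasExp h G' B') : HasExp h (G - G') (B - B') := by
  intro z
  simpa [sub_mul] using (hB z).sub (hB' z)

theorem HasExp.neg {h : ℕ} {G : ℍ → ℂ} {B : PowerSeries ℂ} (hB : HasExp h G B) :
    HasExp h (-G) (-B) := by
  intro z
  simpa using (hB z).neg

theorem HasExp.smul {h : ℕ} {G : ℍ → ℂ} {B : PowerSeries ℂ} (c : ℂ) (hB : HasExp h G B) :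
    HasExp h (c • G) (c • B) := by
  intro z
  simpa [mul_assoc] using (hB z).mul_left c

theorem HasExp.mul {h : ℕ} {G G' : ℍ → ℂ} {B B' : PowerSeries ℂ} (hB : HasExp h G B)
    (hB' : HasExp h G' B') : HasExp h (G * G') (B * B') := by
  intro z
  have h1 := (hB z).summable.norm
  have h2 := (hB' z).summable.norm
  have h3 := tsum_mul_tsum_eq_tsum_sum_antidiagonal_of_summable_norm h1 h2
  have h4 := (summable_norm_sum_mul_antidiagonal_of_summable_norm h1 h2).of_norm
  have h5 : ∀ n : ℕ, (∑ kl ∈ Finset.HasAntidiagonal.antidiagonal n,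
      (PowerSeries.coeff kl.1 B * Periodic.qParam (h : ℝ) (z : ℂ) ^ kl.1) *
      (PowerSeries.coeff kl.2 B' * Periodic.qParam (h : ℝ) (z : ℂ) ^ kl.2)) =
      PowerSeries.coeff n (B * B') * Periodic.qParam (h : ℝ) (z : ℂ) ^ n := by
    intro n
    rw [PowerSeries.coeff_mul, Finset.sum_mul]
    refine Finset.sum_congr rfl fun kl hkl => ?_
    rw [← Finset.HasAntidiagonal.mem_antidiagonal.mp hkl, pow_add]
    ring
  simp only [h5] at h3 h4
  rw [(hB z).tsum_eq, (hB' z).tsum_eq] at h3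
  have := h4.hasSum
  rw [← h3] at this
  exact this

theorem HasExp.pow {h : ℕ} {G : ℍ → ℂ} {B : PowerSeries ℂ} (hB : HasExp h G B) (n : ℕ) :
    HasExp h (G ^ n) (B ^ n) := by
  induction n with
  | zero => simpa using hasExp_one h
  | succ n ih => simpa [pow_succ] using ih.mul hB

theorem HasExp.sum {h : ℕ} {ι : Type*} (s : Finset ι) {G : ι → ℍ → ℂ} {B : ι → PowerSeries ℂ}
    (hB : ∀ i ∈ s, HasExp h (G i) (B i)) : HasExp h (∑ i ∈ s, G i) (∑ i ∈ s, B i) := by
  classical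
  induction s using Finset.induction_on with
  | empty => simpa using hasExp_zero h
  | insert a s ha ih =>
    rw [Finset.sum_insert ha, Finset.sum_insert ha]
    exact (hB a (Finset.mem_insert_self a s)).add
      (ih fun i hi => hB i (Finset.mem_insert_of_mem hi))

theorem HasExp.prod {h : ℕ} {ι : Type*} (s : Finset ι) {G : ι → ℍ → ℂ} {B : ι → PowerSeries ℂ}
    (hB : ∀ i ∈ s, HasExp h (G i) (B i)) : HasExp h (∏ i ∈ s, G i) (∏ i ∈ s, B i) := by
  classical
  induction s using Finset.induction_on with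
  | empty => simpa using hasExp_one h
  | insert a s ha ih =>
    rw [Finset.prod_insert ha, Finset.prod_insert ha]
    exact (hB a (Finset.mem_insert_self a s)).mul
      (ih fun i hi => hB i (Finset.mem_insert_of_mem hi))

/-- Reindexing along `m ↦ t * m`. -/
theorem hasSum_expand {B : PowerSeries ℂ} (t : ℕ) (ht : t ≠ 0) {x y a : ℂ} (hxy : y ^ t = x)
    (hs : HasSum (fun m : ℕ => PowerSeries.coeff m B * x ^ m) a) :
    HasSum (fun m : ℕ => PowerSeries.coeff m (PowerSeries.expand t ht B) * y ^ m) a := by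
  have hinj : Function.Injective (fun m : ℕ => t * m) := mul_right_injective₀ ht
  refine (hinj.hasSum_iff ?_).mp ?_
  · intro m hm
    have : ¬ t ∣ m := by
      rintro ⟨c, rfl⟩
      exact hm ⟨c, rfl⟩
    rw [PowerSeries.coeff_expand_of_not_dvd t ht B this, zero_mul]
  · convert hs using 2 with m
    simp only [Function.comp_apply]
    rw [PowerSeries.coeff_expand_mul, pow_mul, hxy]

/-- Changing the denominator `h ↦ h * t`: `x = y^t`. -/
theorem HasExp.expand_h {h : ℕ} {G : ℍ → ℂ} {B : PowerSeries ℂ} (t : ℕ) (ht : t ≠ 0)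
    (hB : HasExp h G B) : HasExp (h * t) G (PowerSeries.expand t ht B) := by
  intro z
  refine hasSum_expand t ht ?_ (hB z)
  have ht' : (t : ℂ) ≠ 0 := Nat.cast_ne_zero.mpr ht
  rw [Periodic.qParam, Periodic.qParam, ← Complex.exp_nat_mul]
  congr 1
  push_cast
  rw [← div_div, mul_div_cancel₀ _ ht']

/-- `G'(z) = G(p z)`. -/
theorem HasExp.comp_mul {h : ℕ} {G G' : ℍ → ℂ} {B : PowerSeries ℂ} (p : ℕ) (hp : p ≠ 0)
    (hB : HasExp h G B) (hG' : ∀ z w : ℍ, (w : ℂ) = (p : ℂ) * (z : ℂ) → G' z = G w) :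
    HasExp h G' (PowerSeries.expand p hp B) := by
  intro z
  have him : 0 < ((p : ℂ) * (z : ℂ)).im := by
    have : ((p : ℂ) * (z : ℂ)).im = p * z.im := by simp
    rw [this]
    exact mul_pos (Nat.cast_pos.mpr (Nat.pos_of_ne_zero hp)) z.im_pos
  let w : ℍ := ⟨(p : ℂ) * (z : ℂ), him⟩
  rw [hG' z w rfl]
  refine hasSum_expand p hp ?_ (hB w)
  rw [Periodic.qParam, Periodic.qParam, ← Complex.exp_nat_mul]
  congr 1
  show (p : ℂ) * (2 * π * Complex.I * (z : ℂ) / (h : ℝ)) =
    2 * π * Complex.I * ((p : ℂ) * (z : ℂ)) / (h : ℝ)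
  ring

/-- General change of variable multiplying the local parameter by a constant. -/
theorem hasExp_of_qParam {h h' : ℕ} {G G' : ℍ → ℂ} {B : PowerSeries ℂ} (a : ℂ)
    (hB : HasExp h G B)
    (H : ∀ z : ℍ, ∃ w : ℍ, G' z = G w ∧
      Periodic.qParam (h : ℝ) (w : ℂ) = a * Periodic.qParam (h' : ℝ) (z : ℂ)) :
    HasExp h' G' (PowerSeries.rescale a B) := by
  intro z
  obtain ⟨w, hw, hq⟩ := H z
  rw [hw]
  convert hB w using 2 with m
  rw [PowerSeries.coeff_rescale, hq, mul_pow]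
  ring

/-- `G'(z) = G(z / p)`. -/
theorem HasExp.comp_div {h : ℕ} {G G' : ℍ → ℂ} {B : PowerSeries ℂ} (p : ℕ) (hp : p ≠ 0)
    (hB : HasExp h G B) (hG' : ∀ z w : ℍ, (w : ℂ) = (z : ℂ) / (p : ℂ) → G' z = G w) :
    HasExp (h * p) G' B := by
  have := hasExp_of_qParam (h' := h * p) (G' := G') 1 hB (by
    intro z
    have him : 0 < ((z : ℂ) / (p : ℂ)).im := by
      rw [Complex.div_natCast_im]
      exact div_pos z.im_pos (Nat.cast_pos.mpr (Nat.pos_of_ne_zero hp))
    refine ⟨⟨(z : ℂ) / (p : ℂ), him⟩, hG' z _ rfl, ?_⟩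
    rw [one_mul, Periodic.qParam, Periodic.qParam]
    congr 1
    show 2 * π * Complex.I * ((z : ℂ) / (p : ℂ)) / (h : ℝ) =
      2 * π * Complex.I * (z : ℂ) / ((h * p : ℕ) : ℝ)
    push_cast
    rw [mul_div_assoc', div_div, mul_comm (p : ℂ)])
  simpa using this

/-- `G'(z) = G(z + j)`. -/
theorem HasExp.comp_add {h : ℕ} {G G' : ℍ → ℂ} {B : PowerSeries ℂ} (j : ℤ)
    (hB : HasExp h G B) (hG' : ∀ z w : ℍ, (w : ℂ) = (z : ℂ) + (j : ℂ) → G' z = G w) :
    HasExp h G'
      (PowerSeries.rescale (Complex.exp (2 * (π : ℂ) * Complex.I * (j : ℂ) / (h : ℂ))) B) := by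
  refine hasExp_of_qParam _ hB ?_
  intro z
  have him : 0 < ((z : ℂ) + (j : ℂ)).im := by
    simpa using z.im_pos
  refine ⟨⟨(z : ℂ) + (j : ℂ), him⟩, hG' z _ rfl, ?_⟩
  rw [Periodic.qParam, Periodic.qParam, ← Complex.exp_add]
  congr 1
  show 2 * π * Complex.I * ((z : ℂ) + (j : ℂ)) / (h : ℝ) =
    2 * π * Complex.I * (j : ℂ) / (h : ℂ) + 2 * π * Complex.I * (z : ℂ) / (h : ℝ)
  push_cast
  ring

/-- `G'(z) = G((z + j) / p)`. -/
theorem HasExp.comp_affine {h : ℕ} {G G' : ℍ → ℂ} {B : PowerSeries ℂ} (p : ℕ) (hp : p ≠ 0) (j : ℤ)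
    (hB : HasExp h G B) (hG' : ∀ z w : ℍ, (w : ℂ) = ((z : ℂ) + (j : ℂ)) / (p : ℂ) → G' z = G w) :
    HasExp (h * p) G'
      (PowerSeries.rescale
        (Complex.exp (2 * (π : ℂ) * Complex.I * (j : ℂ) / ((h : ℂ) * (p : ℂ)))) B) := by
  refine hasExp_of_qParam _ hB ?_
  intro z
  have him : 0 < (((z : ℂ) + (j : ℂ)) / (p : ℂ)).im := by
    rw [Complex.div_natCast_im]
    have : ((z : ℂ) + (j : ℂ)).im = z.im := by simp
    rw [this]
    exact div_pos z.im_pos (Nat.cast_pos.mpr (Nat.pos_of_ne_zero hp))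
  refine ⟨⟨((z : ℂ) + (j : ℂ)) / (p : ℂ), him⟩, hG' z _ rfl, ?_⟩
  rw [Periodic.qParam, Periodic.qParam, ← Complex.exp_add]
  congr 1
  show 2 * π * Complex.I * (((z : ℂ) + (j : ℂ)) / (p : ℂ)) / (h : ℝ) =
    2 * π * Complex.I * (j : ℂ) / ((h : ℂ) * (p : ℂ)) +
      2 * π * Complex.I * (z : ℂ) / ((h * p : ℕ) : ℝ)
  push_cast
  rw [mul_div_assoc', div_div, mul_comm (p : ℂ)]
  ring

/-- Coefficients of a modular form read off from an expansion. -/
theorem HasExp.eq_qExpansion {N : ℕ} [NeZero N] {k : ℤ} (F : ModularForm (Gam N) k)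
    {B : PowerSeries ℂ} (hB : HasExp 1 (F : ℍ → ℂ) B) : qExpansion 1 F = B :=
  (hasExp_gam F).unique one_pos hB

theorem HasExp.eq_qExpansion_levelOne {k : ℤ} (F : ModularForm 𝒮ℒ k)
    {B : PowerSeries ℂ} (hB : HasExp 1 (F : ℍ → ℂ) B) : qExpansion 1 F = B :=
  (hasExp_levelOne F).unique one_pos hB

/-- A function of period `1` with an expansion in `y = e^{2πiz/h}`. -/
theorem HasExp.eq_expand {h : ℕ} (hh : h ≠ 0) {G : ℍ → ℂ} {B B' : PowerSeries ℂ}
    (hB : HasExp 1 G B) (hB' : HasExp h G B') : B' = PowerSeries.expand h hh B := by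
  have := hB.expand_h h hh
  rw [one_mul] at this
  exact hB'.unique (Nat.pos_of_ne_zero hh) this

end Fermat.Agent.S16
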