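import Mathlib
import Fermat.Agent.S16.MF.Exp
import Fermat.Agent.S23.Prim
import Fermat.Prelude.Def_ModularForm_HeckeOperator

/-!
# S16 / MF / VPForms (helper21): level raising and inclusion of levels as modular forms

Sorry-free proofs of the existence statements of `VP/Iface.lean` (same statements, namespace
`Fermat.Agent.S16.VPb`): `exists_raise`, `exists_raiseOne`, `exists_incl`.
-/

set_option autoImplicit false

open UpperHalfPlane ModularForm CongruenceSubgroup Complex Function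
open scoped MatrixGroups ModularForm Real

namespace Fermat.Agent.S16.VPb

open Fermat.Agent.S23 (Gam)
open Matrix.SpecialLinearGroup
open scoped Pointwise

/-- For `γ ∈ Γ₀(M p)`: `diag(p,1) γ = γ' diag(p,1)` with `γ' ∈ Γ₀(M)`. -/
theorem diag_mul_of_mem {M p : ℕ} (hp : p ≠ 0) {γ : GL (Fin 2) ℝ} (hγ : γ ∈ Gam (M * p)) :
    ∃ g' : SL(2, ℤ), g' ∈ Gamma0 M ∧
      heckeDiagMatrix p * γ = mapGL ℝ g' * heckeDiagMatrix p := by
  obtain ⟨g, hg, rfl⟩ := hγ
  obtain ⟨e, he⟩ : ((M * p : ℕ) : ℤ) ∣ g 1 0 :=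
    (ZMod.intCast_zmod_eq_zero_iff_dvd _ _).mp (CongruenceSubgroup.Gamma0_mem.mp hg)
  have he' : g 1 0 = p * (M * e) := by rw [he]; push_cast; ring
  have hdet := Fermat.Agent.S23.PrimAux.det_eq g
  refine ⟨⟨!![g 0 0, p * g 0 1; M * e, g 1 1], ?_⟩, ?_, ?_⟩
  · rw [Matrix.det_fin_two_of]
    linear_combination hdet + (g 0 1) * he'
  · rw [CongruenceSubgroup.Gamma0_mem]
    simp
  · ext i j
    fin_cases i <;> fin_cases j <;>
      simp [hp, Matrix.mul_apply, Fin.sum_univ_two]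
    all_goals first
      | (have := congrArg (Int.cast : ℤ → ℝ) he'; push_cast at this ⊢; linear_combination this)
      | (have := congrArg (Int.cast : ℤ → ℝ) he'; push_cast at this ⊢; linear_combination -this)
      | ring1

theorem Gam_le_conj {M p : ℕ} (hp : p ≠ 0) :
    Gam (M * p) ≤ (ConjAct.toConjAct (heckeDiagMatrix p)⁻¹ • Gam M : Subgroup (GL (Fin 2) ℝ)) := by
  intro γ hγ
  obtain ⟨g', hg', hmul⟩ := diag_mul_of_mem hp hγ
  rw [map_inv, Subgroup.mem_inv_pointwise_smul_iff, ConjAct.toConjAct_smul, hmul,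
    mul_inv_cancel_right]
  exact ⟨g', hg', rfl⟩

/-- The modular form `g ∣[k] diag(p,1)` of level `Γ₀(M p)`. -/
noncomputable def raise0 {M : ℕ} {k : ℤ} {p : ℕ} (hp : p ≠ 0) (g : ModularForm (Gam M) k) :
    ModularForm (Gam (M * p)) k where
  toFun := ⇑g ∣[k] heckeDiagMatrix p
  slash_action_eq' γ hγ := by
    obtain ⟨g', hg', hmul⟩ := diag_mul_of_mem hp hγ
    rw [← SlashAction.slash_mul, hmul, SlashAction.slash_mul,
      SlashInvariantFormClass.slash_action_eq g _ (Subgroup.mem_map.mpr ⟨g', hg', rfl⟩)]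
  holo' := (ModularFormClass.holo g).slash k _
  bdd_at_cusps' hc :=
    (ModularForm.translate g (heckeDiagMatrix p)).bdd_at_cusps' (hc.mono (Gam_le_conj hp))

theorem exists_raise {M : ℕ} [NeZero M] {k : ℤ} {p : ℕ} (hp : p ≠ 0) (g : ModularForm (Gam M) k) :
    ∃ R : ModularForm (Gam (M * p)) k, ∀ z w : ℍ, (w : ℂ) = p * z → R z = g w := by
  refine ⟨((p : ℂ) ^ (k - 1))⁻¹ • raise0 hp g, ?_⟩
  intro z w hw
  have hp' : (p : ℂ) ≠ 0 := Nat.cast_ne_zero.mpr hp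
  have hwz : w = heckeDiagMatrix p • z :=
    UpperHalfPlane.ext (by rw [hw, coe_heckeDiagMatrix_smul hp])
  show ((p : ℂ) ^ (k - 1))⁻¹ • ((⇑g ∣[k] heckeDiagMatrix p) z) = g w
  rw [slash_heckeDiagMatrix_apply k hp, smul_eq_mul, ← mul_assoc,
    inv_mul_cancel₀ (zpow_ne_zero _ hp'), one_mul, hwz]

/-- For `γ ∈ Γ₀(p)`: `diag(p,1) γ = γ' diag(p,1)` with `γ' ∈ SL(2, ℤ)`. -/
theorem diag_mul_of_mem_one {p : ℕ} (hp : p ≠ 0) {γ : GL (Fin 2) ℝ} (hγ : γ ∈ Gam p) :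
    ∃ g' : SL(2, ℤ), heckeDiagMatrix p * γ = mapGL ℝ g' * heckeDiagMatrix p := by
  obtain ⟨g, hg, rfl⟩ := hγ
  obtain ⟨e, he⟩ : (p : ℤ) ∣ g 1 0 :=
    (ZMod.intCast_zmod_eq_zero_iff_dvd _ _).mp (CongruenceSubgroup.Gamma0_mem.mp hg)
  exact Fermat.Agent.S23.PrimAux.heckeDiagMatrix_mul hp g e he

theorem Gam_le_conj_one {p : ℕ} (hp : p ≠ 0) :
    Gam p ≤ (ConjAct.toConjAct (heckeDiagMatrix p)⁻¹ • 𝒮ℒ : Subgroup (GL (Fin 2) ℝ)) := by
  intro γ hγ
  obtain ⟨g', hmul⟩ := diag_mul_of_mem_one hp hγ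
  rw [map_inv, Subgroup.mem_inv_pointwise_smul_iff, ConjAct.toConjAct_smul, hmul,
    mul_inv_cancel_right]
  exact MonoidHom.mem_range.mpr ⟨g', rfl⟩

/-- The modular form `g ∣[k] diag(p,1)` of level `Γ₀(p)`, `g` of level one. -/
noncomputable def raiseOne0 {k : ℤ} {p : ℕ} (hp : p ≠ 0) (g : ModularForm 𝒮ℒ k) :
    ModularForm (Gam p) k where
  toFun := ⇑g ∣[k] heckeDiagMatrix p
  slash_action_eq' γ hγ := by
    obtain ⟨g', hmul⟩ := diag_mul_of_mem_one hp hγ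
    rw [← SlashAction.slash_mul, hmul, SlashAction.slash_mul,
      SlashInvariantFormClass.slash_action_eq g _ (MonoidHom.mem_range.mpr ⟨g', rfl⟩)]
  holo' := (ModularFormClass.holo g).slash k _
  bdd_at_cusps' hc :=
    (ModularForm.translate g (heckeDiagMatrix p)).bdd_at_cusps' (hc.mono (Gam_le_conj_one hp))

theorem exists_raiseOne {k : ℤ} {p : ℕ} (hp : p ≠ 0) (g : ModularForm 𝒮ℒ k) :
    ∃ R : ModularForm (Gam p) k, ∀ z w : ℍ, (w : ℂ) = p * z → R z = g w := by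
  refine ⟨((p : ℂ) ^ (k - 1))⁻¹ • raiseOne0 hp g, ?_⟩
  intro z w hw
  have hp' : (p : ℂ) ≠ 0 := Nat.cast_ne_zero.mpr hp
  have hwz : w = heckeDiagMatrix p • z :=
    UpperHalfPlane.ext (by rw [hw, coe_heckeDiagMatrix_smul hp])
  show ((p : ℂ) ^ (k - 1))⁻¹ • ((⇑g ∣[k] heckeDiagMatrix p) z) = g w
  rw [slash_heckeDiagMatrix_apply k hp, smul_eq_mul, ← mul_assoc,
    inv_mul_cancel₀ (zpow_ne_zero _ hp'), one_mul, hwz]

theorem Gam_mul_le (d M : ℕ) : Gam (d * M) ≤ Gam M := by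
  rintro γ ⟨g, hg, rfl⟩
  refine ⟨g, ?_, rfl⟩
  rw [SetLike.mem_coe, CongruenceSubgroup.Gamma0_mem, ZMod.intCast_zmod_eq_zero_iff_dvd] at hg ⊢
  exact dvd_trans (by push_cast; exact Dvd.intro_left _ rfl) hg

theorem exists_incl (d : ℕ) {M : ℕ} {k : ℤ} (f : ModularForm (Gam M) k) :
    ∃ F : ModularForm (Gam (d * M)) k, ∀ z : ℍ, F z = f z :=
  ⟨{ toFun := f
     slash_action_eq' := fun γ hγ => f.slash_action_eq' γ (Gam_mul_le d M hγ)
     holo' := f.holo'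
     bdd_at_cusps' := fun hc => f.bdd_at_cusps' (hc.mono (Gam_mul_le d M)) }, fun _ => rfl⟩

/-- The `q`-expansion of any form `R` with `R z = g (p z)`. -/
theorem qExpansion_of_raise {M : ℕ} [NeZero M] {k : ℤ} {p : ℕ} (hp : p ≠ 0)
    (g : ModularForm (Gam M) k) (R : ModularForm (Gam (M * p)) k)
    (hR : ∀ z w : ℍ, (w : ℂ) = p * z → R z = g w) :
    qExpansion 1 R = PowerSeries.expand p hp (qExpansion 1 g) := by
  have : NeZero (M * p) := ⟨Nat.mul_ne_zero (NeZero.ne M) hp⟩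
  exact HasExp.eq_qExpansion R ((hasExp_gam g).comp_mul p hp hR)

/-- The `q`-expansion of any form `R` with `R z = g (p z)`, `g` of level one. -/
theorem qExpansion_of_raiseOne {k : ℤ} {p : ℕ} (hp : p ≠ 0)
    (g : ModularForm 𝒮ℒ k) (R : ModularForm (Gam p) k)
    (hR : ∀ z w : ℍ, (w : ℂ) = p * z → R z = g w) :
    qExpansion 1 R = PowerSeries.expand p hp (qExpansion 1 g) := by
  have : NeZero p := ⟨hp⟩
  exact HasExp.eq_qExpansion R ((hasExp_levelOne g).comp_mul p hp hR)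

end Fermat.Agent.S16.VPb
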