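import Mathlib
import Fermat.Agent.S16.MF.Exp

/-!
# S16 / MF / VPSlash (helper21): translates of `G(z) = g(p z)` by `γ ∈ SL(2, ℤ)`

Function-level lemmas with exactly the statements of `vp_slash_of_dvd`, `vp_slash_of_not_dvd` of
`VP/Iface.lean` (namespace `Fermat.Agent.S16.VPb`), sorry-free.
-/

set_option autoImplicit false

open UpperHalfPlane ModularForm CongruenceSubgroup Complex Function
open scoped MatrixGroups ModularForm Real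

namespace Fermat.Agent.S16.VPb

theorem coe_sl_smul (γ : SL(2, ℤ)) (z : ℍ) :
    ((γ • z : ℍ) : ℂ) = ((γ 0 0 : ℂ) * z + (γ 0 1 : ℂ)) / ((γ 1 0 : ℂ) * z + (γ 1 1 : ℂ)) := by
  rw [UpperHalfPlane.coe_specialLinearGroup_apply]
  simp

theorem denom_sl (γ : SL(2, ℤ)) (z : ℍ) :
    denom γ z = (γ 1 0 : ℂ) * z + (γ 1 1 : ℂ) := by
  exact ModularGroup.denom_apply γ z

/-- Strong form: also the denominators agree, `denom γ' (p z) = denom γ z`, and the matrix `γ'` does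
not depend on `k`, `g`, `G`. -/
theorem vp_slash_of_dvd_strong {p : ℕ} (hp : p ≠ 0) (γ : SL(2, ℤ)) (hγ : (p : ℤ) ∣ γ 1 0) :
    ∃ γ' : SL(2, ℤ), γ' 1 0 * p = γ 1 0 ∧ γ' 0 0 = γ 0 0 ∧ γ' 1 1 = γ 1 1 ∧
      ∀ z w : ℍ, (w : ℂ) = p * z → denom γ' w = denom γ z ∧
        ((γ' • w : ℍ) : ℂ) = p * ((γ • z : ℍ) : ℂ) ∧
        ∀ (k : ℤ) (g G : ℍ → ℂ), (∀ z w : ℍ, (w : ℂ) = p * z → G z = g w) →
          (G ∣[k] γ) z = (g ∣[k] γ') w := by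
  obtain ⟨c', hc'⟩ := hγ
  have hdet : γ 0 0 * γ 1 1 - γ 0 1 * γ 1 0 = 1 := by
    have := γ.det_coe
    rw [Matrix.det_fin_two] at this
    exact this
  let γ' : SL(2, ℤ) := ⟨!![γ 0 0, p * γ 0 1; c', γ 1 1], by
    rw [Matrix.det_fin_two_of]
    rw [hc'] at hdet
    linear_combination hdet⟩
  have h00 : γ' 0 0 = γ 0 0 := rfl
  have h01 : γ' 0 1 = p * γ 0 1 := rfl
  have h10 : γ' 1 0 = c' := rfl
  have h11 : γ' 1 1 = γ 1 1 := rfl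
  refine ⟨γ', by rw [h10, hc']; ring, h00, h11, ?_⟩
  intro z w hw
  have hp' : (p : ℂ) ≠ 0 := Nat.cast_ne_zero.mpr hp
  have hden : denom γ' w = denom γ z := by
    rw [denom_sl, denom_sl, h10, h11, hw, hc']
    push_cast
    ring
  have hz : denom γ z ≠ 0 := denom_ne_zero γ z
  have hpt : ((γ' • w : ℍ) : ℂ) = p * ((γ • z : ℍ) : ℂ) := by
    have hz' : (γ 1 0 : ℂ) * z + (γ 1 1 : ℂ) ≠ 0 := by rw [← denom_sl]; exact hz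
    have hw' : (γ' 1 0 : ℂ) * w + (γ' 1 1 : ℂ) = (γ 1 0 : ℂ) * z + (γ 1 1 : ℂ) := by
      rw [← denom_sl, ← denom_sl]; exact hden
    rw [coe_sl_smul, coe_sl_smul, hw', h00, h01, hw]
    push_cast
    field_simp
  refine ⟨hden, hpt, fun k g G hG => ?_⟩
  rw [SL_slash_apply, SL_slash_apply, hden, hG (γ • z) (γ' • w) hpt]

theorem vp_slash_of_dvd {p : ℕ} (hp : p ≠ 0) (k : ℤ) {g G : ℍ → ℂ}
    (hG : ∀ z w : ℍ, (w : ℂ) = p * z → G z = g w) (γ : SL(2, ℤ)) (hγ : (p : ℤ) ∣ γ 1 0) :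
    ∃ γ' : SL(2, ℤ), γ' 1 0 * p = γ 1 0 ∧ γ' 0 0 = γ 0 0 ∧ γ' 1 1 = γ 1 1 ∧
      ∀ z w : ℍ, (w : ℂ) = p * z → (G ∣[k] γ) z = (g ∣[k] γ') w := by
  obtain ⟨γ', h1, h2, h3, h4⟩ := vp_slash_of_dvd_strong hp γ hγ
  exact ⟨γ', h1, h2, h3, fun z w hw => (h4 z w hw).2.2 k g G hG⟩

/-- Strong form: also `denom γ' ((z + j) / p) = denom γ z / p`, `γ' 1 1 * p = γ 1 1 - γ 1 0 * j`, and
`γ'`, `j` do not depend on `k`, `g`, `G`. -/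
theorem vp_slash_of_not_dvd_strong {p : ℕ} (hp : p.Prime) (γ : SL(2, ℤ))
    (hγ : ¬ (p : ℤ) ∣ γ 1 0) :
    ∃ (γ' : SL(2, ℤ)) (j : ℕ), j < p ∧ (p : ℤ) ∣ γ 1 1 - γ 1 0 * j ∧ γ' 1 0 = γ 1 0 ∧
      γ' 1 1 * p = γ 1 1 - γ 1 0 * j ∧
      ∀ z w : ℍ, (w : ℂ) = (z + j) / p → denom γ' w = denom γ z / p ∧
        ((γ' • w : ℍ) : ℂ) = p * ((γ • z : ℍ) : ℂ) ∧
        ∀ (k : ℤ) (g G : ℍ → ℂ), (∀ z w : ℍ, (w : ℂ) = p * z → G z = g w) →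
          (G ∣[k] γ) z = (p : ℂ) ^ (-k) * (g ∣[k] γ') w := by
  have : Fact p.Prime := ⟨hp⟩
  have hdet : γ 0 0 * γ 1 1 - γ 0 1 * γ 1 0 = 1 := by
    have := γ.det_coe
    rw [Matrix.det_fin_two] at this
    exact this
  have hc : ((γ 1 0 : ℤ) : ZMod p) ≠ 0 := by
    rwa [Ne, ZMod.intCast_zmod_eq_zero_iff_dvd]
  set j : ℕ := (((γ 1 1 : ℤ) : ZMod p) * ((γ 1 0 : ℤ) : ZMod p)⁻¹).val with hj
  have hjp : j < p := ZMod.val_lt _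
  have hdvd : (p : ℤ) ∣ γ 1 1 - γ 1 0 * j := by
    rw [← ZMod.intCast_zmod_eq_zero_iff_dvd]
    push_cast
    rw [hj, ZMod.natCast_val, ZMod.cast_id', id_eq, mul_comm (((γ 1 1 : ℤ) : ZMod p)),
      ← mul_assoc, mul_inv_cancel₀ hc, one_mul, sub_self]
  obtain ⟨d', hd'⟩ := hdvd
  let γ' : SL(2, ℤ) := ⟨!![p * γ 0 0, γ 0 1 - γ 0 0 * j; γ 1 0, d'], by
    rw [Matrix.det_fin_two_of]
    linear_combination hdet - γ 0 0 * hd'⟩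
  have h00 : γ' 0 0 = p * γ 0 0 := rfl
  have h01 : γ' 0 1 = γ 0 1 - γ 0 0 * j := rfl
  have h10 : γ' 1 0 = γ 1 0 := rfl
  have h11 : γ' 1 1 = d' := rfl
  refine ⟨γ', j, hjp, ⟨d', hd'⟩, h10, by rw [h11, hd']; ring, ?_⟩
  intro z w hw
  have hp' : (p : ℂ) ≠ 0 := Nat.cast_ne_zero.mpr hp.ne_zero
  have hd'' : (γ 1 1 : ℂ) - (γ 1 0 : ℂ) * (j : ℂ) = (p : ℂ) * (d' : ℂ) := by
    exact_mod_cast congrArg (Int.cast : ℤ → ℂ) hd'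
  have hz : denom γ z ≠ 0 := denom_ne_zero γ z
  have hden : denom γ' w = denom γ z / p := by
    rw [denom_sl, denom_sl, h10, h11, hw, eq_div_iff hp']
    have : (d' : ℂ) * p = (γ 1 1 : ℂ) - (γ 1 0 : ℂ) * (j : ℂ) := by rw [hd'']; ring
    field_simp
    linear_combination this
  have hpt : ((γ' • w : ℍ) : ℂ) = p * ((γ • z : ℍ) : ℂ) := by
    have hz' : (γ 1 0 : ℂ) * z + (γ 1 1 : ℂ) ≠ 0 := by rw [← denom_sl]; exact hz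
    have hw' : (γ' 1 0 : ℂ) * w + (γ' 1 1 : ℂ) = ((γ 1 0 : ℂ) * z + (γ 1 1 : ℂ)) / p := by
      rw [← denom_sl, ← denom_sl]; exact hden
    rw [coe_sl_smul, coe_sl_smul, hw', h00, h01, hw]
    push_cast
    field_simp
    ring
  refine ⟨hden, hpt, fun k g G hG => ?_⟩
  rw [SL_slash_apply, SL_slash_apply, hden, hG (γ • z) (γ' • w) hpt, div_zpow, zpow_neg, zpow_neg]
  have h1 : (p : ℂ) ^ k ≠ 0 := zpow_ne_zero k hp'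
  have h2 : denom γ z ^ k ≠ 0 := zpow_ne_zero k hz
  field_simp

theorem vp_slash_of_not_dvd {p : ℕ} (hp : p.Prime) (k : ℤ) {g G : ℍ → ℂ}
    (hG : ∀ z w : ℍ, (w : ℂ) = p * z → G z = g w) (γ : SL(2, ℤ)) (hγ : ¬ (p : ℤ) ∣ γ 1 0) :
    ∃ (γ' : SL(2, ℤ)) (j : ℕ), j < p ∧ (p : ℤ) ∣ γ 1 1 - γ 1 0 * j ∧ γ' 1 0 = γ 1 0 ∧
      ∀ z w : ℍ, (w : ℂ) = (z + j) / p → (G ∣[k] γ) z = (p : ℂ) ^ (-k) * (g ∣[k] γ') w := by
  obtain ⟨γ', j, h1, h2, h3, -, h4⟩ := vp_slash_of_not_dvd_strong hp γ hγ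
  exact ⟨γ', j, h1, h2, h3, fun z w hw => (h4 z w hw).2.2 k g G hG⟩

end Fermat.Agent.S16.VPb
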